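/-
MAZUR (Track M), package (P) (helper5), instantiation, part 1: **the chart functions only depend on the
reduction of the point, modulo the maximal ideal** (abstract setting of ALPHA-KEY/RED).

Setting: good reduction `hg : T3aGood d ℓ x`, a chart `ch : AlpxChart hg V` with `[D v - E0] = ι v`
for a homomorphism `ι : V →+ Pic⁰(F)`.
* `mzqi_resA_eq_of_red_eq` : `red (D v) = red (D v')` ⇒ the chart coordinates of `v` and `v'` are
  congruent modulo the maximal ideal (reduce the defining relation and use (G2));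
* `mzqi_red_eq_of_class`  : `red (ι v) = red (ι v')` in `Pic⁰(F̄)` ⇒ `red (D v) = red (D v')`
  (the reductions are linearly equivalent effective divisors and `ℓ̄ (red (D v')) = 1`, (G1));
* `mzqi_resA_eq` : the composite.
-/
import Fermat.Agent.Lib.Alpha.Mod.ChartAbs
import Fermat.Agent.Lib.Alpha.Key.ChartFun
import Fermat.Agent.Lib.Alpha.KM.Chain

set_option autoImplicit false
set_option linter.style.haveILetI false
set_option linter.unusedSectionVars false

namespace Fermat.Agent.Mazur

open AlgebraicCurve IntermediateField Fermat.Agent.Curve Fermat.Agent.CurveP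
  Fermat.Agent.Curve.PlaceAux Fermat.Agent.T1 Fermat.Agent.T3 RRAux Fermat.Agent.Alpha

variable {K F k Fb : Type*} [Field K] [Field F] [Algebra K F] [Field k] [Field Fb] [Algebra k Fb]
variable [IsAlgClosed K] [IsAlgClosed k]
variable {d : TbBase K F k Fb} {ℓ : ℕ} {x : F}
variable {hg : T3aGood d ℓ x} {V : Type*} [AddCommGroup V]

/-- **the chart coordinates modulo the maximal ideal only depend on the reduced divisor** -/
theorem mzqi_resA_eq_of_red_eq (ch : AlpxChart hg V) {v v' : V}
    (h : alprRed hg (ch.D v) = alprRed hg (ch.D v')) (j : Fin ch.N) (i : Fin (genusR K F)) :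
    d.resA (ch.mA j i v) = d.resA (ch.mA j i v') := by
  have hW : ch.Wb v = ch.Wb v' := by
    unfold AlpxChart.Wb
    rw [map_sub, map_sub, h]
  have h1 : ch.wb v j - ch.wb v' j ∈ ch.Wb v :=
    (ch.Wb v).sub_mem (ch.wb_mem v j) (by rw [hW]; exact ch.wb_mem v' j)
  have h2 : ch.wb v j - ch.wb v' j =
      ∑ i, (fun i => d.resA (ch.mA j i v') - d.resA (ch.mA j i v)) i • ch.cB i := by
    simp only [AlpxChart.wb, sub_smul, Finset.sum_sub_distrib]
    abel
  rw [h2] at h1
  have h3 := ch.cB_indep v _ h1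
  have h4 := congrFun h3 i
  exact (sub_eq_zero.mp h4).symm

/-- **equal reductions of the classes force equal reductions of the chart divisors** -/
theorem mzqi_red_eq_of_class (ch : AlpxChart hg V) (ι : V →+ Pic0 K F)
    (hcl : ∀ v, ∃ hdeg : ch.D v - ch.E0 ∈ Divisor.degZero (K := K) (F := F),
      Pic0.mk ⟨ch.D v - ch.E0, hdeg⟩ = ι v) {v v' : V}
    (h : t3aRed hg (ι v) = t3aRed hg (ι v')) :
    alprRed hg (ch.D v) = alprRed hg (ch.D v') := by
  haveI := hg.sep
  haveI := hg.sepb'
  obtain ⟨hd, hv⟩ := hcl v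
  obtain ⟨hd', hv'⟩ := hcl v'
  rw [← hv, ← hv', t3aRed_mk, t3aRed_mk, alpm_mk_eq_iff] at h
  rw [coe_t3aRedDiv0, coe_t3aRedDiv0] at h
  have h1 : alprRed hg (ch.D v) - alprRed hg (ch.D v') ∈
      Divisor.principal (K := k) (F := Fb) := by
    have e : alprRed hg (ch.D v) - alprRed hg (ch.D v') =
        Finsupp.mapDomain (t3aR hg) (ch.D v - ch.E0) -
          Finsupp.mapDomain (t3aR hg) (ch.D v' - ch.E0) := by
      rw [← alprRed_apply, ← alprRed_apply, map_sub, map_sub]
      abel
    rw [e]
    exact h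
  obtain ⟨fb, hfb0, hfb⟩ := alpm_eq_divOf_of_principal hg.genb' h1
  have h2 : alprRed hg (ch.D v) = alprRed hg (ch.D v') + divOf hg.genb' fb := by
    rw [← hfb]
    abel
  have h3 := alpk_unique_effective hg.genb' (ch.hG1 v') hfb0 (one_ne_zero)
    (by rw [← h2]; exact alpr_red_nonneg hg (ch.hD v))
    (by rw [alpk_divOf_one, add_zero]; exact alpr_red_nonneg hg (ch.hD v'))
  rw [alpk_divOf_one, add_zero] at h3
  rw [h2, h3]

/-- the composite: the chart coordinates modulo the maximal ideal only depend on the reduction of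
the class -/
theorem mzqi_resA_eq (ch : AlpxChart hg V) (ι : V →+ Pic0 K F)
    (hcl : ∀ v, ∃ hdeg : ch.D v - ch.E0 ∈ Divisor.degZero (K := K) (F := F),
      Pic0.mk ⟨ch.D v - ch.E0, hdeg⟩ = ι v) {v v' : V}
    (h : t3aRed hg (ι v) = t3aRed hg (ι v')) (j : Fin ch.N) (i : Fin (genusR K F)) :
    d.resA (ch.mA j i v) = d.resA (ch.mA j i v') :=
  mzqi_resA_eq_of_red_eq ch (mzqi_red_eq_of_class ch ι hcl h) j i

end Fermat.Agent.Mazur
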