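/-
MAZUR (Track M), package (P) (helper5), instantiation, part 2: **the ALPHA chart of a finite
inertia-stable subgroup of `J₀(N)`, and the connected part**.

`𝔓` a place of `ℚ̄` with `𝔓.p ∤ N`; `X` a finite `G_ℚ`-module with an injective, `I_𝔓`-equivariant
homomorphism `φ : X →+ J₀(N)`.  Then there is a chart `m` of `X` at `𝔓` (`MzqIsChart 𝔓 m`, the input
of the abstract core `LocP/{Chart,Trace,Cyc,Peu}`) whose connected part contains the kernel of the
reduction map `mzrRho 𝔓 N hN ∘ φ` (`mzqi_exists_chart`).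

The chart is the ALPHA chart (`alpm_exists_chart_abs` with the INV facts at the cusp `∞`) at the good
auxiliary level `N · mzrAux 𝔓`, transported along the pull-back `t3pPull` (injective on torsion).
-/
import Fermat.Agent.Lib.Mazur.LocP.Inst.Red
import Fermat.Agent.Lib.Mazur.LocP.Chart
import Fermat.Agent.Lib.Mazur.Red.Defs
import Fermat.Agent.Lib.Alpha.Mod.Chart
import Fermat.Agent.Lib.Alpha.Mod.Comul
import Fermat.Agent.Lib.Alpha.Key.Assemble
import Fermat.Agent.Lib.Alpha.Inv.Inf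
import Fermat.Agent.Lib.Alpha.Inv.LiftFun
import Fermat.Agent.Lib.Alpha.Inv.LiftPlace
import Fermat.Agent.Lib.T3.Pull.Torsion

set_option autoImplicit false
set_option linter.style.haveILetI false
set_option linter.unusedSectionVars false
set_option synthInstance.maxHeartbeats 400000

namespace Fermat.Agent.Mazur

open AlgebraicCurve IntermediateField Fermat.Agent.Curve Fermat.Agent.CurveP
  Fermat.Agent.Curve.PlaceAux Fermat.Agent.T1 Fermat.Agent.T3 RRAux ModularCurve Fermat.Agent.TW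
  Fermat.Agent.Alpha Fermat.Agent.S05Lib

local notation "Qb" => AlgebraicClosure ℚ
local notation "GQ" => (AlgebraicClosure ℚ ≃ₐ[ℚ] AlgebraicClosure ℚ)

/-- congruence modulo the maximal ideal of `𝔓.P`, in terms of the valuation -/
theorem mzqi_gt_of_residue_eq (𝔓 : FFPlace) {a b : Qb} (ha : a ∈ 𝔓.P) (hb : b ∈ 𝔓.P)
    (h : IsLocalRing.residue ↥𝔓.P ⟨a, ha⟩ = IsLocalRing.residue ↥𝔓.P ⟨b, hb⟩) :
    𝔓.v.Gt (a - b) 0 := by
  by_cases h0 : a - b = 0
  · exact Or.inl h0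
  right
  have h1 : (⟨a, ha⟩ - ⟨b, hb⟩ : ↥𝔓.P) ∈ IsLocalRing.maximalIdeal ↥𝔓.P := by
    rw [← IsLocalRing.residue_eq_zero_iff, map_sub, h, sub_self]
  have h2 : 𝔓.P.valuation (a - b) < 1 := (ValuationSubring.valuation_lt_one_iff 𝔓.P _).mp h1
  have h3 : 𝔓.P.valuation (a - b) < 𝔓.P.valuation 1 := by rw [map_one]; exact h2
  rw [qv_lt_iff 𝔓.P 𝔓.hp 𝔓.hP qv_isAlgebraic_int_qbar h0 one_ne_zero,
    qvOrd_one 𝔓.P 𝔓.hp 𝔓.hP] at h3
  exact h3

section Good

variable (𝔓 : FFPlace) (M : ℕ) [NeZero M] (h49 : 4 ∣ M ∨ 9 ∣ M) (hM : ¬ 𝔓.p ∣ M)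
variable {X : Type} [AddCommGroup X] [DistribMulAction GQ X] [Finite X]

set_option maxHeartbeats 1600000 in
/-- **the chart at a good level**: a finite `I_𝔓`-stable subgroup of `J₀(M)` has a chart whose
connected part contains the kernel of the reduction map -/
theorem mzqi_exists_chart_good (ψ : X →+ JZero M) (hψ : Function.Injective ψ)
    (hψI : ∀ τ ∈ 𝔓.I, ∀ x, ψ (τ • x) = τ • ψ x) :
    ∃ (ι : Type) (_ : Finite ι) (m : ι → X → Qb) (hm : MzqIsChart 𝔓 m),
      ∀ x, t3zRed 𝔓 M h49 hM (ψ x) = 0 → x ∈ mzqV0 hm := by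
  classical
  letI : Fintype X := Fintype.ofFinite X
  obtain ⟨ch, hch, heG, hcG, -, hcl, hDG⟩ := alpm_exists_chart_abs (t3a_good_modular 𝔓 M h49 hM)
    (alpmInertia 𝔓 M) (alpiInf M)
    (fun n hn t ht => by
      obtain ⟨s, hs, hsI, hO, hst⟩ := alpi_lift_fun 𝔓 M h49 hM (alpxPt (alpiInf M) n)
        (fun σ _ => alpi_smul_single_inf M σ n)
        (by
          haveI := (t3a_good_modular 𝔓 M h49 hM).sep
          rw [alpxPt_degree (t3a_good_modular 𝔓 M h49 hM).gen]; exact hn) ht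
      refine ⟨s, hs, ?_, hO, hst⟩
      rintro g ⟨τ, hτ, rfl⟩
      exact hsI τ hτ)
    (fun Eb hEb => by
      obtain ⟨E, hE, hEred, hEI⟩ := alpi_lift_divisor 𝔓 M h49 hM Eb hEb
      refine ⟨E, hE, hEred, ?_⟩
      rintro g ⟨τ, hτ, rfl⟩
      exact hEI τ hτ)
    ψ hψ
  -- inertia equivariance of the chart functions
  have hI : ∀ τ ∈ 𝔓.I, ∀ (v : X) (j : Fin ch.N)
      (i : Fin (CurveP.genusR Qb ↥(modularFunctionFieldBar M))),
      ch.m j i (τ • v) = τ (ch.m j i v) := by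
    intro τ hτ v j i
    have hgI := alpm_mem_inertia 𝔓 M hτ
    have hD : arithmeticGalois (modularFunctionFieldFull M) τ • ch.D v = ch.D (τ • v) :=
      hDG _ hgI v (τ • v) (by rw [hψI τ hτ v]; rfl)
    have h := alpm_m_smul ch (arithmeticGalois (modularFunctionFieldFull M) τ)
      (by rw [hch]; exact alpi_inf_fixed M τ) (heG _ hgI) (hcG _ hgI) hD j i
    rw [h]
    rfl
  have hm : MzqIsChart 𝔓
      (fun (q : Fin ch.N × Fin (CurveP.genusR Qb ↥(modularFunctionFieldBar M))) (v : X) =>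
        ch.m q.1 q.2 v) :=
    { int := fun q v => ch.m_mem q.1 q.2 v
      eqv := fun q τ hτ v => hI τ hτ v q.1 q.2
      sep := fun v w hvw => by
        by_contra hcon
        push Not at hcon
        exact hvw (ch.m_sep v w fun j i => hcon (j, i))
      comul := fun q => alpm_hcomul_of_adjoin 𝔓.P _ q (alpx_key ch q.1 q.2) }
  refine ⟨_, inferInstance, _, hm, fun v hv => ?_⟩
  rw [mem_mzqV0]
  intro q
  have h1 : t3aRed (t3a_good_modular 𝔓 M h49 hM) (ψ v) =
      t3aRed (t3a_good_modular 𝔓 M h49 hM) (ψ 0) := by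
    rw [map_zero, map_zero]
    exact hv
  exact mzqi_gt_of_residue_eq 𝔓 (ch.m_mem q.1 q.2 v) (ch.m_mem q.1 q.2 0)
    (mzqi_resA_eq ch ψ hcl h1 q.1 q.2)

end Good

section Level

variable (𝔓 : FFPlace) (N : ℕ) [NeZero N] (hN : ¬ 𝔓.p ∣ N)
variable {X : Type} [AddCommGroup X] [DistribMulAction GQ X] [Finite X]

/-- **the chart of a finite `I_𝔓`-stable subgroup of `J₀(N)`**, `𝔓.p ∤ N`: its connected part
contains the kernel of the reduction map `ρ_𝔓` -/
theorem mzqi_exists_chart (φ : X →+ JZero N) (hφ : Function.Injective φ)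
    (hφI : ∀ τ ∈ 𝔓.I, ∀ x, φ (τ • x) = τ • φ x) :
    ∃ (ι : Type) (_ : Finite ι) (m : ι → X → Qb) (hm : MzqIsChart 𝔓 m),
      ∀ x, mzrRho 𝔓 N hN (φ x) = 0 → x ∈ mzqV0 hm := by
  refine mzqi_exists_chart_good 𝔓 (N * mzrAux 𝔓) (mzr_h49 𝔓 N) (mzr_not_dvd 𝔓 N hN)
    ((t3pPull N (mzrAux 𝔓)).comp φ) ?_ ?_
  · intro x y hxy
    have hc : Nat.card X ≠ 0 := Nat.card_pos.ne'
    have h0 : t3pPull N (mzrAux 𝔓) (φ (x - y)) = 0 := by
      rw [map_sub, map_sub, sub_eq_zero]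
      exact hxy
    have htor : Nat.card X • φ (x - y) = 0 := by
      rw [← map_nsmul, card_nsmul_eq_zero', map_zero]
    have h1 := t3pPull_eq_zero_of_torsion N (mzrAux 𝔓) hc (φ (x - y)) htor h0
    have h2 : x - y = 0 := hφ (by rw [h1, map_zero])
    exact sub_eq_zero.mp h2
  · intro τ hτ x
    show t3pPull N (mzrAux 𝔓) (φ (τ • x)) = τ • t3pPull N (mzrAux 𝔓) (φ x)
    rw [hφI τ hτ, t3pPull_galois]

end Level

end Fermat.Agent.Mazur
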