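/-
MAZUR (Track M), package (P) (helper5), instantiation, part 3: **the fields `ord`, `cyc`, `peu` of
`MzsObj` for a finite subgroup of `J₀(N)` at a place `𝔓` of good reduction**.

`𝔓.p ∤ N`; `X` a finite `G_ℚ`-module with an injective `I_𝔓`-equivariant `φ : X →+ J₀(N)`;
`X0 := mzqiX0 𝔓 N hN φ := ker (ρ_𝔓 ∘ φ)`, `ρ_𝔓 = mzrRho 𝔓 N hN` (package (R)).  Given a flag of
`I_𝔓`-stable subgroups of `X` with steps of index `𝔓.p` (the flag of `mzs_main`):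
* `mzqi_ord` : `i • x - x ∈ X0` for `i ∈ I_𝔓` (no flag needed, (R1));
* `mzqi_cyc` : `I_𝔓` acts on `X0` through the cyclotomic character;
* `mzqi_peu` : `X` is peu ramifié at `𝔓`.
These are literally the fields `ord`, `cyc`, `peu` of `MzsObj 𝔭 𝔓 X` with `X0 := mzqiX0 𝔓 N hN φ`.
-/
import Fermat.Agent.Lib.Mazur.LocP.Inst.Chart
import Fermat.Agent.Lib.Mazur.LocP.Peu

set_option autoImplicit false
set_option linter.style.haveILetI false
set_option linter.unusedSectionVars false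
set_option synthInstance.maxHeartbeats 400000

namespace Fermat.Agent.Mazur

open AlgebraicCurve ModularCurve Fermat.Agent.TW Fermat.Agent.S05Lib

local notation "Qb" => AlgebraicClosure ℚ
local notation "GQ" => (AlgebraicClosure ℚ ≃ₐ[ℚ] AlgebraicClosure ℚ)

variable (𝔓 : FFPlace) (N : ℕ) [NeZero N] (hN : ¬ 𝔓.p ∣ N)
variable {X : Type} [AddCommGroup X] [DistribMulAction GQ X]

/-- the connected part at `𝔓` of a subgroup of `J₀(N)`: the kernel of the reduction map -/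
noncomputable def mzqiX0 (φ : X →+ JZero N) : AddSubgroup X := ((mzrRho 𝔓 N hN).comp φ).ker

theorem mem_mzqiX0 (φ : X →+ JZero N) (x : X) :
    x ∈ mzqiX0 𝔓 N hN φ ↔ mzrRho 𝔓 N hN (φ x) = 0 := Iff.rfl

/-- **`ord`**: the inertia group at `𝔓` acts trivially modulo the connected part -/
theorem mzqi_ord (φ : X →+ JZero N) (hφI : ∀ τ ∈ 𝔓.I, ∀ x, φ (τ • x) = τ • φ x) :
    ∀ i ∈ 𝔓.I, ∀ x : X, i • x - x ∈ mzqiX0 𝔓 N hN φ := by
  intro i hi x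
  rw [mem_mzqiX0, map_sub, map_sub, hφI i hi, mzrRho_inertia 𝔓 N hN hi, sub_self]

variable [Finite X]

/-- **`cyc`**: the inertia group at `𝔓` acts on the connected part through the cyclotomic
character -/
theorem mzqi_cyc (φ : X →+ JZero N) (hφ : Function.Injective φ)
    (hφI : ∀ τ ∈ 𝔓.I, ∀ x, φ (τ • x) = τ • φ x)
    (n : ℕ) (F : ℕ → AddSubgroup X) (hF0 : F 0 = ⊥) (hFn : F n = ⊤)
    (hmono : ∀ j < n, F j ≤ F (j + 1))
    (hstab : ∀ j ≤ n, ∀ τ ∈ 𝔓.I, ∀ x ∈ F j, τ • x ∈ F j)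
    (hcard : ∀ j < n, (F j).relIndex (F (j + 1)) = 𝔓.p) :
    ∀ i ∈ 𝔓.I, ∃ e : ℕ, (∀ x ∈ mzqiX0 𝔓 N hN φ, i • x = e • x) ∧
      ∀ ζ : Qb, ζ ^ Nat.card X = 1 → i ζ = ζ ^ e := by
  obtain ⟨ι, hι, m, hm, hker⟩ := mzqi_exists_chart 𝔓 N hN φ hφ hφI
  intro i hi
  obtain ⟨e, he, hζ⟩ := mzq_cyc hm n F hF0 hFn hmono hstab hcard i hi
  exact ⟨e, fun x hx => he x (hker x hx), hζ⟩

include hN in
/-- **`peu`**: a finite subgroup of `J₀(N)` with a flag as above is peu ramifié at `𝔓` -/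
theorem mzqi_peu (φ : X →+ JZero N) (hφ : Function.Injective φ)
    (hφI : ∀ τ ∈ 𝔓.I, ∀ x, φ (τ • x) = τ • φ x)
    (n : ℕ) (F : ℕ → AddSubgroup X) (hF0 : F 0 = ⊥) (hFn : F n = ⊤)
    (hmono : ∀ j < n, F j ≤ F (j + 1))
    (hstab : ∀ j ≤ n, ∀ τ ∈ 𝔓.I, ∀ x ∈ F j, τ • x ∈ F j)
    (hcard : ∀ j < n, (F j).relIndex (F (j + 1)) = 𝔓.p) :
    ∀ (x : X) (χ : AddChar X Qb), MzsUnitKummer 𝔓 (fun g => χ (g • x - x)) := by
  obtain ⟨ι, hι, m, hm, -⟩ := mzqi_exists_chart 𝔓 N hN φ hφ hφI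
  intro x χ
  exact mzq_peu hm n F hF0 hFn hmono hstab hcard x χ

end Fermat.Agent.Mazur
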